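/-
S55 / 36b-H3-JQ (helper45; seam given by helper54 #2153): degree-3 vanishing for the units of a
finite Galois extension of local fields and for the `q`-component `Jq q L` of the ideles, from a
fundamental cocycle of the local class formation (Tate's theorem, `TateNak43.Uncond`).

* `HasFund F E`           : `∃ σ, IsFundamentalCocycle (Rep.ofAlgebraAutOnUnits F E) σ`;
* `isZero_H3_resUnits`    : `H³(D', Eˣ) = 0` for every subgroup `D' ≤ Gal(E/F)`;
* `isZero_H3_fixedField`  : `H³(Gal(E/E^{D'}), Eˣ) = 0`;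
* `isZero_H3_Jq`          : `H³(H, Jq q L) = 0` for every subgroup `H ≤ Gal(L/ℚ)`;
* `isZero_H3_Jq_top`      : `H³(Gal(L/ℚ), Jq q L) = 0`.
-/
import Mathlib
import Fermat.Agent.S55.Idele73.Components
import Fermat.Agent.S55.TateNak43.Uncond

set_option autoImplicit false

namespace Fermat.Agent.S55.H3Jq45

open CategoryTheory Limits
open Fermat.Agent.S55.Idele73 Fermat.Agent.S55.Idele73.Basic Fermat.Agent.S55.Idele73.Local
  Fermat.Agent.S55.Idele73.Components

/-! ### Units of a finite Galois extension with a fundamental cocycle -/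

section Abstract

variable (F E : Type) [Field F] [Field E] [Algebra F E]

/-- the local class formation datum for `E/F`: a fundamental `2`-cocycle of
`(Gal(E/F), Eˣ)` in the sense of `TateNak43`. -/
def HasFund : Prop :=
  ∃ σ : groupCohomology.cocycles₂ (Rep.ofAlgebraAutOnUnits F E),
    Fermat.Agent.S55.TateNak43.IsFundamentalCocycle (Rep.ofAlgebraAutOnUnits F E) σ

variable {F E} [FiniteDimensional F E]

/-- `H³(D', Eˣ) = 0` for every subgroup `D' ≤ Gal(E/F)` (Tate). -/
theorem isZero_H3_resUnits (h : HasFund F E) (D' : Subgroup (E ≃ₐ[F] E)) :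
    IsZero (groupCohomology (Rep.res D'.subtype (Rep.ofAlgebraAutOnUnits F E)) 3) := by
  obtain ⟨σ, hσ⟩ := h
  let _ : Fintype (E ≃ₐ[F] E) := Fintype.ofFinite _
  exact Fermat.Agent.S55.TateNak43.Uncond.isZero_H3 _ σ hσ D'

/-- `H³(Gal(E/F), Eˣ) = 0` (Tate). -/
theorem isZero_H3_units (h : HasFund F E) :
    IsZero (groupCohomology (Rep.ofAlgebraAutOnUnits F E) 3) := by
  obtain ⟨σ, hσ⟩ := h
  let _ : Fintype (E ≃ₐ[F] E) := Fintype.ofFinite _
  exact Fermat.Agent.S55.TateNak43.Uncond.isZero_H3_top _ σ hσ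

/-- `H³(Gal(E/E^{D'}), Eˣ) = 0` for every intermediate fixed field. -/
theorem isZero_H3_fixedField (h : HasFund F E) (D' : Subgroup (E ≃ₐ[F] E)) :
    IsZero (groupCohomology
      (Rep.ofAlgebraAutOnUnits (IntermediateField.fixedField D') E) 3) :=
  IsZero.of_iso (isZero_H3_resUnits h D') (resUnitsIso D' 3).symm

end Abstract

/-! ### The `q`-component of the ideles -/

section Global

variable (q : ℕ) [Fact q.Prime] (L : IntermediateField ℚ Qbar) [Normal ℚ L]
variable [FiniteDimensional ℚ L]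

/-- **`H³(H, Jq q L) = 0`** for every subgroup `H ≤ Gal(L/ℚ)`, from a fundamental cocycle of the
local level `E = ℚ_q(ι L)` over `ℚ_q`. -/
theorem isZero_H3_Jq (h : HasFund ℚ_[q] (Elev q L)) (H : Subgroup (GalL L)) :
    IsZero (groupCohomology (Rep.res H.subtype (Jq q L)) 3) := by
  obtain ⟨R, hR⟩ := Mackey.exists_isRepr (jE q L) H
  refine IsZero.of_iso ?_
    ((groupCohomology.functor ℤ H 3).mapIso (resJqIso q L H).symm)
  exact ShapiroInj.isZero_resCoind (jE q L) (jE_injective q L) (EUnits q L) H 3 hR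
    (fun x _ => isZero_H3_resUnits h (Dx q L H x))

/-- **`H³(Gal(L/ℚ), Jq q L) = 0`** (whole group). -/
theorem isZero_H3_Jq_top (h : HasFund ℚ_[q] (Elev q L)) :
    IsZero (groupCohomology (Jq q L) 3) :=
  IsZero.of_iso (isZero_H3_Jq q L h ⊤)
    (Fermat.Agent.S55.TateNak43.Uncond.resTopIso (Jq q L) 3).symm

/-- the local components: `H³(Gal(E/K_x), Eˣ) = 0` for every place of `K = L^H` over `q`. -/
theorem isZero_H3_Kx (h : HasFund ℚ_[q] (Elev q L)) (H : Subgroup (GalL L)) (x : GalL L) :
    IsZero (groupCohomology (Rep.ofAlgebraAutOnUnits (Kx q L H x) (Elev q L)) 3) :=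
  isZero_H3_fixedField h (Dx q L H x)

end Global

end Fermat.Agent.S55.H3Jq45
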