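/-
S55 / 36b-H3-JQ (helper45): the LAYER form of the degree-3 vanishing for the `q`-component of the
ideles: for `N ⊴ H ≤ Gal(L/ℚ)` (relative extension `L^N / L^H`),
`H³(H ⧸ N, (Jq q L)^N) = 0` and `|H²(H ⧸ N, (Jq q L)^N)| = ∏_x |D_x ⧸ M_x|`,
from a fundamental cocycle of the local level `E = ℚ_q(ι L)` over `ℚ_q`
(`SubQuot.lean`: a class formation passes to its subquotients).
-/
import Mathlib
import Fermat.Agent.S55.Idele73.LayerJq
import Fermat.Agent.S55.H3Jq45.Main
import Fermat.Agent.S55.H3Jq45.SubQuot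

set_option autoImplicit false

namespace Fermat.Agent.S55.H3Jq45

open CategoryTheory Limits
open Fermat.Agent.S55.Idele73 Fermat.Agent.S55.Idele73.Basic Fermat.Agent.S55.Idele73.Local
  Fermat.Agent.S55.Idele73.Components Fermat.Agent.S55.Idele73.LayerJq

/-! ### local layers of a finite Galois extension with a fundamental cocycle -/

section Abstract

variable {F E : Type} [Field F] [Field E] [Algebra F E] [FiniteDimensional F E]

/-- every layer `(D ⧸ M, (Eˣ)^M)`, `M ⊴ D ≤ Gal(E/F)`, has a fundamental cocycle. -/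
theorem exists_fund_unitsLayer (h : HasFund F E) (D : Subgroup (E ≃ₐ[F] E)) (M : Subgroup D)
    [M.Normal] :
    ∃ τ : groupCohomology.cocycles₂
        ((Rep.res D.subtype (Rep.ofAlgebraAutOnUnits F E)).quotientToInvariants M),
      Fermat.Agent.S55.TateNak43.IsFundamentalCocycle
        ((Rep.res D.subtype (Rep.ofAlgebraAutOnUnits F E)).quotientToInvariants M) τ := by
  obtain ⟨σ, hσ⟩ := h
  exact exists_fund_layer _ σ hσ D M

/-- `H³(D ⧸ M, (Eˣ)^M) = 0`. -/
theorem isZero_H3_unitsLayer (h : HasFund F E) (D : Subgroup (E ≃ₐ[F] E)) (M : Subgroup D)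
    [M.Normal] :
    IsZero (groupCohomology
      ((Rep.res D.subtype (Rep.ofAlgebraAutOnUnits F E)).quotientToInvariants M) 3) := by
  obtain ⟨σ, hσ⟩ := h
  exact isZero_H3_layer _ σ hσ D M

/-- `|H²(D ⧸ M, (Eˣ)^M)| = |D ⧸ M|`. -/
theorem card_H2_unitsLayer (h : HasFund F E) (D : Subgroup (E ≃ₐ[F] E)) (M : Subgroup D)
    [M.Normal] :
    Nat.card (groupCohomology
      ((Rep.res D.subtype (Rep.ofAlgebraAutOnUnits F E)).quotientToInvariants M) 2) =
      Nat.card (D ⧸ M) := by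
  obtain ⟨σ, hσ⟩ := h
  exact card_H2_layer _ σ hσ D M

end Abstract

/-! ### the `q`-component of the ideles -/

section Global

variable (q : ℕ) [Fact q.Prime] (L : IntermediateField ℚ Qbar) [Normal ℚ L]
variable [FiniteDimensional ℚ L]
variable (H : Subgroup (GalL L)) (N : Subgroup H) [N.Normal]

/-- **`H³(H ⧸ N, (Jq q L)^N) = 0`** for every layer `N ⊴ H ≤ Gal(L/ℚ)`. -/
theorem isZero_H3_layer_Jq (h : HasFund ℚ_[q] (Elev q L)) :
    IsZero (groupCohomology ((Rep.res H.subtype (Jq q L)).quotientToInvariants N) 3) := by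
  obtain ⟨R, hR⟩ := Mackey.exists_isRepr (jE q L) H
  refine IsZero.of_iso ?_
    ((groupCohomology.functor ℤ (H ⧸ N) 3).mapIso (invJqIso q L H N).symm)
  exact Layer.isZero_layer (jE q L) (EUnits q L) H N 3 hR
    (fun x _ => isZero_H3_unitsLayer h (Dx q L H x) (MxJ q L H N x))

/-- the local layers: `H³(D_x ⧸ M_x, (Eˣ)^{M_x}) = 0`. -/
theorem isZero_H3_locLayer (h : HasFund ℚ_[q] (Elev q L)) (x : GalL L) :
    IsZero (groupCohomology (locLayer q L H N x) 3) :=
  isZero_H3_unitsLayer h (Dx q L H x) (MxJ q L H N x)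

/-- the local layers: `|H²(D_x ⧸ M_x, (Eˣ)^{M_x})| = |D_x ⧸ M_x|`. -/
theorem card_H2_locLayer (h : HasFund ℚ_[q] (Elev q L)) (x : GalL L) :
    Nat.card (groupCohomology (locLayer q L H N x) 2) =
      Nat.card (Dx q L H x ⧸ MxJ q L H N x) :=
  card_H2_unitsLayer h (Dx q L H x) (MxJ q L H N x)

/-- **`|H²(H ⧸ N, (Jq q L)^N)| = ∏_x |D_x ⧸ M_x|`** (product of the local degrees). -/
theorem card_H2_layer_Jq (h : HasFund ℚ_[q] (Elev q L)) {R : Finset (GalL L)}
    (hR : Mackey.IsRepr (jE q L) H R) :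
    Nat.card (groupCohomology ((Rep.res H.subtype (Jq q L)).quotientToInvariants N) 2) =
      ∏ x : R, Nat.card (Dx q L H (x : GalL L) ⧸ MxJ q L H N (x : GalL L)) := by
  rw [card_Hn_layer q L H N 2 hR]
  exact Finset.prod_congr rfl (fun x _ => card_H2_locLayer q L H N h (x : GalL L))

end Global

end Fermat.Agent.S55.H3Jq45
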