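/-
S55 / 36b-H3-JQ (helper45): everything in `H3Jq45/{Main,Layer}` from the SINGLE arithmetic input
`AbsClassQ q` (verbatim helper71's `P2Local71.AbsClass' q` = helper80's (N2)): for every finite
Galois `E/ℚ_q` inside `PadicAlgCl q`, `H²(Gal(E/ℚ_q), Eˣ)` contains a class whose order is
divisible by `[E : ℚ_q]` (the lower bound of local class field theory, absolute case).
Glue: helper43's `TateNak43.LocalH3.exists_isFundamentalCocycle_ofAlgebraAutOnUnits`
(upper bound = helper51's LocDev51 dévissage, inside).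
-/
import Mathlib
import Fermat.Agent.S55.H3Jq45.Layer
import Fermat.Agent.S55.TateNak43.LocalH3

set_option autoImplicit false

namespace Fermat.Agent.S55.H3Jq45

open CategoryTheory Limits
open Fermat.Agent.S55.Idele73 Fermat.Agent.S55.Idele73.Basic Fermat.Agent.S55.Idele73.Local
  Fermat.Agent.S55.Idele73.Components Fermat.Agent.S55.Idele73.LayerJq

variable (q : ℕ) [Fact q.Prime]

/-- **the single arithmetic input** (definitionally `P2Local71.AbsClass' q`): one class of
`H²(Gal(E/ℚ_q), Eˣ)` whose order is divisible by `[E : ℚ_q]`, for every finite Galois `E/ℚ_q`. -/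
def AbsClassQ : Prop :=
  ∀ (E : IntermediateField ℚ_[q] (PadicAlgCl q)) [FiniteDimensional ℚ_[q] E] [IsGalois ℚ_[q] E],
    ∃ x : groupCohomology (Rep.ofAlgebraAutOnUnits ℚ_[q] E) 2,
      Module.finrank ℚ_[q] E ∣ addOrderOf x

variable {q}

/-- the local fundamental cocycle of a finite Galois `E/ℚ_q` from one class of full order. -/
theorem hasFund_of_class (E : IntermediateField ℚ_[q] (PadicAlgCl q)) [FiniteDimensional ℚ_[q] E]
    [IsGalois ℚ_[q] E]
    (h : ∃ x : groupCohomology (Rep.ofAlgebraAutOnUnits ℚ_[q] E) 2,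
      Module.finrank ℚ_[q] E ∣ addOrderOf x) : HasFund ℚ_[q] E := by
  obtain ⟨x, hx⟩ := h
  obtain ⟨σ, -, hσ⟩ :=
    Fermat.Agent.S55.TateNak43.LocalH3.exists_isFundamentalCocycle_ofAlgebraAutOnUnits
      ℚ_[q] E x hx
  exact ⟨σ, hσ⟩

/-- `AbsClassQ q` gives the local fundamental cocycle of every finite Galois `E/ℚ_q`. -/
theorem hasFund_of_absClassQ (h : AbsClassQ q) (E : IntermediateField ℚ_[q] (PadicAlgCl q))
    [FiniteDimensional ℚ_[q] E] [IsGalois ℚ_[q] E] : HasFund ℚ_[q] E :=
  hasFund_of_class E (h E)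

variable (L : IntermediateField ℚ Qbar) [Normal ℚ L] [FiniteDimensional ℚ L]

instance isGalois_Elev : IsGalois ℚ_[q] (Elev q L) := ⟨⟩

/-- the local level `E = ℚ_q(ι L)` has a fundamental cocycle. -/
theorem hasFund_Elev (h : AbsClassQ q) : HasFund ℚ_[q] (Elev q L) :=
  hasFund_of_absClassQ h (Elev q L)

/-- **`H³(H, Jq q L) = 0`** for every `H ≤ Gal(L/ℚ)`, from `AbsClassQ q`. -/
theorem isZero_H3_Jq_of_absClassQ (h : AbsClassQ q) (H : Subgroup (GalL L)) :
    IsZero (groupCohomology (Rep.res H.subtype (Jq q L)) 3) :=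
  isZero_H3_Jq q L (hasFund_Elev L h) H

/-- elementwise form (helper63's `hfin` shape: in particular no `p`-torsion). -/
theorem eq_zero_of_H3_Jq (h : AbsClassQ q) (H : Subgroup (GalL L))
    (x : groupCohomology (Rep.res H.subtype (Rep.coind (locHom q L) (localUnits q))) 3) :
    x = 0 :=
  (ModuleCat.subsingleton_of_isZero (isZero_H3_Jq_of_absClassQ L h H)).elim _ _

/-- **`H³(H ⧸ N, (Jq q L)^N) = 0`** for every layer, from `AbsClassQ q`. -/
theorem isZero_H3_layer_Jq_of_absClassQ (h : AbsClassQ q) (H : Subgroup (GalL L))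
    (N : Subgroup H) [N.Normal] :
    IsZero (groupCohomology ((Rep.res H.subtype (Jq q L)).quotientToInvariants N) 3) :=
  isZero_H3_layer_Jq q L H N (hasFund_Elev L h)

/-- **`|H²(H ⧸ N, (Jq q L)^N)| = ∏_x |D_x ⧸ M_x|`**, from `AbsClassQ q`. -/
theorem card_H2_layer_Jq_of_absClassQ (h : AbsClassQ q) (H : Subgroup (GalL L))
    (N : Subgroup H) [N.Normal] {R : Finset (GalL L)} (hR : Mackey.IsRepr (jE q L) H R) :
    Nat.card (groupCohomology ((Rep.res H.subtype (Jq q L)).quotientToInvariants N) 2) =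
      ∏ x : R, Nat.card (Dx q L H (x : GalL L) ⧸ MxJ q L H N (x : GalL L)) :=
  card_H2_layer_Jq q L H N (hasFund_Elev L h) hR

end Fermat.Agent.S55.H3Jq45
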