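/-
S55 / 36b-H3-JQ (helper45): a class formation passes to its subquotients.

If `(G, C)` (`G` finite, `C : Rep ℤ G`) has a fundamental cocycle in the sense of `TateNak43`, then
every subquotient `(Q, B)` of `(G, C)` (helper99's `SubQuot99.IsSubQuot`, e.g. the canonical layers
`(H ⧸ N, (Res_H C)^N)`, `N ⊴ H ≤ G`) again has a fundamental cocycle; in particular
`H¹(Q, B) = 0`, `H²(Q, B)` is cyclic of order `|Q|` and `H³(Q, B) = 0`.
-/
import Mathlib
import Fermat.Agent.S55.SubQuot99
import Fermat.Agent.S55.FundClass28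
import Fermat.Agent.S55.TateNak43.Uncond

set_option autoImplicit false

namespace Fermat.Agent.S55.H3Jq45

open CategoryTheory Limits groupCohomology Rep

/-! ### a counting lemma on finite abelian groups -/

/-- if `|X| ≤ n`, `X` contains an element whose order is divisible by `n`, and `m ∣ n`, then a
subgroup killed by `m` has at most `m` elements. -/
lemma card_le_of_torsion {X : Type*} [AddCommGroup X] [Finite X] {n m : ℕ} (hn : 0 < n)
    (hm : m ∣ n) (hX : Nat.card X ≤ n) (x₀ : X) (hx₀ : n ∣ addOrderOf x₀)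
    (T : AddSubgroup X) (hT : ∀ x ∈ T, m • x = 0) : Nat.card T ≤ m := by
  obtain ⟨d, rfl⟩ := hm
  have hm0 : 0 < m := Nat.pos_of_mul_pos_right hn
  have hd0 : 0 < d := Nat.pos_of_mul_pos_left hn
  let φ : X →+ X := nsmulAddMonoidHom m
  have hφ : ∀ x, φ x = m • x := fun _ => rfl
  have hTker : T ≤ φ.ker := fun x hx => (AddMonoidHom.mem_ker).2 ((hφ x).trans (hT x hx))
  have hcard : Nat.card φ.ker * Nat.card φ.range = Nat.card X := by
    rw [← AddSubgroup.card_mul_index φ.ker, AddSubgroup.index,
      Nat.card_congr (QuotientAddGroup.quotientKerEquivRange φ).toEquiv]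
  have hrange : d ≤ Nat.card φ.range := by
    have h1 : d ∣ addOrderOf (m • x₀) := by
      have h : m * d ∣ addOrderOf (m • x₀) * m := by
        refine hx₀.trans ?_
        apply addOrderOf_dvd_of_nsmul_eq_zero
        rw [mul_smul, addOrderOf_nsmul_eq_zero]
      rw [mul_comm m d] at h
      exact Nat.dvd_of_mul_dvd_mul_right hm0 h
    have h2 : 0 < addOrderOf (m • x₀) := addOrderOf_pos _
    have h3 : Nat.card (AddSubgroup.zmultiples (m • x₀)) ≤ Nat.card φ.range :=
      AddSubgroup.card_le_of_le ((AddSubgroup.zmultiples_le).2 ⟨x₀, rfl⟩)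
    rw [Nat.card_zmultiples] at h3
    exact (Nat.le_of_dvd h2 h1).trans h3
  have h5 : Nat.card T ≤ Nat.card φ.ker := AddSubgroup.card_le_of_le hTker
  have h4 : Nat.card φ.ker * d ≤ m * d :=
    (Nat.mul_le_mul_left _ hrange).trans (hcard.le.trans hX)
  exact h5.trans (Nat.le_of_mul_le_mul_right h4 hd0)

/-! ### pairs which look like the top of a class formation -/

/-- `(Q, B)` looks like the top layer of a class formation: `H¹ = 0`, `|H²| ≤ |Q|`, and `H²`
contains a class whose order is divisible by `|Q|` (so `H²` is cyclic of order `|Q|`). -/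
structure TopGood (Q : Type) [Group Q] (B : Rep.{0} ℤ Q) : Prop where
  h1 : IsZero (groupCohomology B 1)
  fin : Finite (groupCohomology B 2)
  card_le : Nat.card (groupCohomology B 2) ≤ Nat.card Q
  exists_ord : ∃ x : groupCohomology B 2, Nat.card Q ∣ addOrderOf x

/-- transport along isomorphisms of cohomology. -/
theorem TopGood.of_iso {Q₁ Q₂ : Type} [Group Q₁] [Group Q₂] {B₁ : Rep.{0} ℤ Q₁}
    {B₂ : Rep.{0} ℤ Q₂} (hc : Nat.card Q₁ = Nat.card Q₂)
    (i1 : groupCohomology B₁ 1 ≅ groupCohomology B₂ 1)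
    (i2 : groupCohomology B₁ 2 ≅ groupCohomology B₂ 2) (h : TopGood Q₂ B₂) :
    TopGood Q₁ B₁ := by
  have e2 : groupCohomology B₁ 2 ≃ₗ[ℤ] groupCohomology B₂ 2 := i2.toLinearEquiv
  have := h.fin
  refine ⟨h.h1.of_iso i1, Finite.of_equiv _ e2.symm.toEquiv, ?_, ?_⟩
  · rw [Nat.card_congr e2.toEquiv, hc]
    exact h.card_le
  · obtain ⟨x, hx⟩ := h.exists_ord
    refine ⟨e2.symm x, ?_⟩
    rw [hc]
    have : addOrderOf (e2.symm x) = addOrderOf x :=
      addOrderOf_injective (e2.symm : groupCohomology B₂ 2 →ₗ[ℤ] groupCohomology B₁ 2).toAddMonoidHom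
        e2.symm.injective x
    rw [this]
    exact hx

/-! ### subgroups -/

section Fund

open Fermat.Agent.S55.TateNak43

variable {G : Type} [Group G] [Finite G] (C : Rep.{0} ℤ G) (σ : cocycles₂ C)

/-- the restriction of a class formation with fundamental cocycle to a subgroup is `TopGood`. -/
theorem TopGood.of_fund (hσ : IsFundamentalCocycle C σ) (H : Subgroup G) :
    TopGood H (Rep.res H.subtype C) := by
  set γ : groupCohomology (Rep.res H.subtype C) 2 :=
    H2π (Rep.res H.subtype C) (resCocycle C σ H) with hγ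
  have hkill : Nat.card H • γ = 0 := Fermat.Agent.S55.InfRes9.card_smul_eq_zero_two _ γ
  have hdvd : addOrderOf γ ∣ Nat.card H := addOrderOf_dvd_of_nsmul_eq_zero hkill
  have hpos : 0 < addOrderOf γ := Nat.pos_of_dvd_of_pos hdvd Nat.card_pos
  have htop : AddSubgroup.zmultiples γ = ⊤ := by
    rw [eq_top_iff]
    intro x _
    obtain ⟨a, ha⟩ := hσ.hgen H x
    rw [AddSubgroup.mem_zmultiples_iff]
    exact ⟨a, (ha.trans (int_smul_eq_zsmul _ a γ)).symm⟩
  have hcard : Nat.card (groupCohomology (Rep.res H.subtype C) 2) = addOrderOf γ := by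
    rw [← Nat.card_zmultiples γ, htop]
    exact (Nat.card_congr (AddSubgroup.topEquiv).toEquiv).symm
  have hord : Nat.card H ∣ addOrderOf γ := by
    have h0 : ((addOrderOf γ : ℕ) : ℤ) • γ = 0 := by
      rw [natCast_zsmul]; exact addOrderOf_nsmul_eq_zero γ
    obtain ⟨b, hb⟩ := hσ.hord H (addOrderOf γ : ℤ) ((int_smul_eq_zsmul _ _ γ).trans h0)
    exact Int.natCast_dvd_natCast.1 ⟨b, hb⟩
  refine ⟨hσ.h1 H, Nat.finite_of_card_ne_zero (by rw [hcard]; exact hpos.ne'), ?_, γ, hord⟩
  rw [hcard]
  exact Nat.le_of_dvd Nat.card_pos hdvd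

end Fund

/-! ### quotients -/

section Quot

open Fermat.Agent.S55

variable {G : Type} [Group G] [Finite G] (A : Rep.{0} ℤ G) (S : Subgroup G) [S.Normal]

/-- the invariants of a normal subgroup `S` with `H¹(S, A) = 0`, as a module over the quotient,
are again `TopGood`. -/
theorem TopGood.quot (hA : TopGood G A)
    (hS1 : IsZero (groupCohomology (Rep.res S.subtype A) 1)) :
    TopGood (G ⧸ S) (A.quotientToInvariants S) := by
  have hmono : Mono (InfRes9.H2InfRes A S).f := InfRes9.H2InfRes_mono A S hS1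
  have hex : (InfRes9.H2InfRes A S).Exact := InfRes9.H2InfRes_exact A S hS1
  let f : groupCohomology (A.quotientToInvariants S) 2 →ₗ[ℤ] groupCohomology A 2 :=
    (InfRes9.H2InfRes A S).f.hom
  let g : groupCohomology A 2 →ₗ[ℤ] groupCohomology (Rep.res S.subtype A) 2 :=
    (InfRes9.H2InfRes A S).g.hom
  have hfinj : Function.Injective f := (ModuleCat.mono_iff_injective _).1 hmono
  have hgf : ∀ y, g (f y) = 0 := fun y => by
    have h := (InfRes9.H2InfRes A S).zero
    have h' := congrArg (fun φ => φ.hom y) h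
    exact h'
  have hex' : ∀ x, g x = 0 → ∃ y, f y = x := fun x hx =>
    (ShortComplex.moduleCat_exact_iff _).1 hex x hx
  have := hA.fin
  have hfin : Finite (groupCohomology (A.quotientToInvariants S) 2) :=
    Finite.of_injective _ hfinj
  have h1 : IsZero (groupCohomology (A.quotientToInvariants S) 1) := by
    have hm : Mono (groupCohomology.H1InfRes A S).f := inferInstance
    rw [IsZero.iff_id_eq_zero]
    exact (cancel_mono (groupCohomology.H1InfRes A S).f).1 (hA.h1.eq_of_tgt _ _)
  obtain ⟨x₀, hx₀⟩ := hA.exists_ord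
  refine ⟨h1, hfin, ?_, ?_⟩
  · let T : AddSubgroup (groupCohomology A 2) := f.toAddMonoidHom.range
    have hT : ∀ x ∈ T, S.index • x = 0 := by
      rintro _ ⟨y, rfl⟩
      exact InfRes9.index_smul_eq_zero_of_res_eq_zero_two A S _ (hgf y)
    have hle := card_le_of_torsion (n := Nat.card G) (m := S.index) Nat.card_pos
      (Subgroup.index_dvd_card S) hA.card_le x₀ hx₀ T hT
    have hc : Nat.card (groupCohomology (A.quotientToInvariants S) 2) = Nat.card T :=
      Nat.card_congr (Equiv.ofInjective _ hfinj)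
    rw [hc, ← Subgroup.index_eq_card]
    exact hle
  · have hz : g (Nat.card S • x₀) = 0 := by
      rw [map_nsmul]
      exact InfRes9.card_smul_eq_zero_two _ _
    obtain ⟨τ, hτ⟩ := hex' _ hz
    refine ⟨τ, ?_⟩
    have h0 : (addOrderOf τ * Nat.card S) • x₀ = 0 := by
      rw [mul_smul, ← hτ, ← map_nsmul, addOrderOf_nsmul_eq_zero, map_zero]
    have h2 : Nat.card G ∣ addOrderOf τ * Nat.card S :=
      hx₀.trans (addOrderOf_dvd_of_nsmul_eq_zero h0)
    rw [← Subgroup.index_mul_card S] at h2
    rw [← Subgroup.index_eq_card]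
    exact Nat.dvd_of_mul_dvd_mul_right Nat.card_pos h2

end Quot

/-- for a `TopGood` pair, `|H²| = |Q|`. -/
theorem TopGood.card_eq {Q : Type} [Group Q] [Finite Q] {B : Rep.{0} ℤ Q} (h : TopGood Q B) :
    Nat.card (groupCohomology B 2) = Nat.card Q := by
  have := h.fin
  obtain ⟨x, hx⟩ := h.exists_ord
  refine le_antisymm h.card_le ?_
  have h2 : addOrderOf x ≤ Nat.card (groupCohomology B 2) := by
    rw [← Nat.card_zmultiples x]
    exact Nat.card_le_card_of_injective _ (AddSubgroup.zmultiples x).subtype_injective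
  exact (Nat.le_of_dvd (addOrderOf_pos x) hx).trans h2

/-- cohomology of a subgroup of a subgroup (generic coefficient ring, to avoid the `ℤ`-module
diamond). -/
noncomputable def resResIso {k : Type} [CommRing k] {G : Type} [Group G] (C : Rep.{0} k G)
    (H : Subgroup G) (N : Subgroup H) (n : ℕ) :
    groupCohomology (Rep.res N.subtype (Rep.res H.subtype C)) n ≅
      groupCohomology (Rep.res (N.map H.subtype).subtype C) n :=
  groupCohomology.mapIso (A := Rep.res (N.map H.subtype).subtype C)
    (B := Rep.res N.subtype (Rep.res H.subtype C))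
    (N.equivMapOfInjective H.subtype H.subtype_injective) (LinearEquiv.refl k C.V)
    (fun _ => rfl) n

/-! ### all layers of a class formation -/

section Layers

open Fermat.Agent.S55.TateNak43 Fermat.Agent.S55.SubQuot99

variable {G : Type} [Group G] [Finite G] (C : Rep.{0} ℤ G) (σ : cocycles₂ C)

omit [Finite G] in
/-- `H¹(N, C) = 0` for a subgroup of a subgroup. -/
theorem isZero_H1_res_res (hσ : IsFundamentalCocycle C σ) (H : Subgroup G) (N : Subgroup H) :
    IsZero (groupCohomology (Rep.res N.subtype (Rep.res H.subtype C)) 1) :=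
  IsZero.of_iso (hσ.h1 (N.map H.subtype)) (resResIso C H N 1)

/-- every canonical layer `(H ⧸ N, (Res_H C)^N)` of a class formation is `TopGood`. -/
theorem topGood_layer (hσ : IsFundamentalCocycle C σ) (H : Subgroup G) (N : Subgroup H)
    [N.Normal] : TopGood (H ⧸ N) ((Rep.res H.subtype C).quotientToInvariants N) :=
  (TopGood.of_fund C σ hσ H).quot (Rep.res H.subtype C) N (isZero_H1_res_res C σ hσ H N)

variable {Q : Type} [Group Q] {B : Rep.{0} ℤ Q}

/-- every subquotient of a class formation is `TopGood`. -/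
theorem topGood_of_isSubQuot (hσ : IsFundamentalCocycle C σ) (h : IsSubQuot C Q B) :
    TopGood Q B := by
  obtain ⟨H, N, hN, e, e', he⟩ := h.exists_canonical
  exact TopGood.of_iso (Nat.card_congr e.toEquiv) (mapIso e e' he 1) (mapIso e e' he 2)
    (topGood_layer C σ hσ H N)

/-- **a class formation passes to its subquotients**: every subquotient `(Q, B)` of a pair `(G, C)`
with a fundamental cocycle has a fundamental cocycle. -/
theorem exists_fund_of_isSubQuot (hσ : IsFundamentalCocycle C σ) (h : IsSubQuot C Q B) :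
    ∃ τ : cocycles₂ B, IsFundamentalCocycle B τ := by
  have hQ : Finite Q := h.elim fun D => Finite.of_surjective D.π D.π_surj
  let _ : Fintype Q := Fintype.ofFinite Q
  obtain ⟨x, hx⟩ := (topGood_of_isSubQuot C σ hσ h).exists_ord
  obtain ⟨τ, rfl⟩ := (ModuleCat.epi_iff_surjective (H2π B)).1 inferInstance x
  exact ⟨τ, Fermat.Agent.S55.FundClass28.isFundamentalCocycle_of_card B τ
    (fun Q' => (topGood_of_isSubQuot C σ hσ (h.res Q')).h1)
    (fun Q' => (topGood_of_isSubQuot C σ hσ (h.res Q')).fin)
    (fun Q' => (topGood_of_isSubQuot C σ hσ (h.res Q')).card_le) hx⟩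

/-- `H³(Q, B) = 0` for every subquotient of a class formation. -/
theorem isZero_H3_of_isSubQuot (hσ : IsFundamentalCocycle C σ) (h : IsSubQuot C Q B) :
    IsZero (groupCohomology B 3) := by
  have hQ : Finite Q := h.elim fun D => Finite.of_surjective D.π D.π_surj
  let _ : Fintype Q := Fintype.ofFinite Q
  obtain ⟨τ, hτ⟩ := exists_fund_of_isSubQuot C σ hσ h
  exact Fermat.Agent.S55.TateNak43.Uncond.isZero_H3_top B τ hτ

/-- the canonical layers: a fundamental cocycle of `(H ⧸ N, (Res_H C)^N)`. -/
theorem exists_fund_layer (hσ : IsFundamentalCocycle C σ) (H : Subgroup G) (N : Subgroup H)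
    [N.Normal] :
    ∃ τ : cocycles₂ ((Rep.res H.subtype C).quotientToInvariants N),
      IsFundamentalCocycle ((Rep.res H.subtype C).quotientToInvariants N) τ :=
  exists_fund_of_isSubQuot C σ hσ (isSubQuot_canonical C H N)

/-- **`H³(H ⧸ N, (Res_H C)^N) = 0`** for every layer of a class formation. -/
theorem isZero_H3_layer (hσ : IsFundamentalCocycle C σ) (H : Subgroup G) (N : Subgroup H)
    [N.Normal] : IsZero (groupCohomology ((Rep.res H.subtype C).quotientToInvariants N) 3) :=
  isZero_H3_of_isSubQuot C σ hσ (isSubQuot_canonical C H N)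

/-- `H¹(H ⧸ N, (Res_H C)^N) = 0` for every layer of a class formation. -/
theorem isZero_H1_layer (hσ : IsFundamentalCocycle C σ) (H : Subgroup G) (N : Subgroup H)
    [N.Normal] : IsZero (groupCohomology ((Rep.res H.subtype C).quotientToInvariants N) 1) :=
  (topGood_layer C σ hσ H N).h1

/-- `|H²(H ⧸ N, (Res_H C)^N)| = |H ⧸ N|` for every layer of a class formation. -/
theorem card_H2_layer (hσ : IsFundamentalCocycle C σ) (H : Subgroup G) (N : Subgroup H)
    [N.Normal] :
    Nat.card (groupCohomology ((Rep.res H.subtype C).quotientToInvariants N) 2) =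
      Nat.card (H ⧸ N) :=
  (topGood_layer C σ hσ H N).card_eq

end Layers

end Fermat.Agent.S55.H3Jq45
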