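/-
S55 / 36b-H3-JQ (helper45): the degree-3 vanishing for the `q`-component of the ideles,
UNCONDITIONALLY.  The single arithmetic input `AbsClassQ q` of `OfClass.lean` is helper51's
`LocDev51.absClass'` (on helper80's `LocInv80.LFGen.step_LF_gen`).

* `absClassQ_holds q : AbsClassQ q`;
* `hasFund_LF E : HasFund ℚ_[q] E` for every finite Galois `E/ℚ_q` inside `PadicAlgCl q`
  (the local fundamental cocycle), `hasFund_Elev_uncond`;
* `isZero_H3_Jq_uncond q L H : IsZero (H³(H, Jq q L))` for every `H ≤ Gal(L/ℚ)`;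
* `isZero_H3_layer_Jq_uncond q L H N : IsZero (H³(H ⧸ N, (Jq q L)^N))` for every layer;
* `card_H2_layer_Jq_uncond : |H²(H ⧸ N, (Jq q L)^N)| = ∏_x |D_x ⧸ M_x|`;
* local forms: `isZero_H3_units_LF`, `isZero_H3_resUnits_LF`, `isZero_H3_unitsLayer_LF`,
  `card_H2_unitsLayer_LF`, `exists_fund_unitsLayer_LF`.
-/
import Mathlib
import Fermat.Agent.S55.H3Jq45.OfClass
import Fermat.Agent.S55.LocDev51.AbsClass

set_option autoImplicit false

namespace Fermat.Agent.S55.H3Jq45

open CategoryTheory Limits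
open Fermat.Agent.S55.Idele73 Fermat.Agent.S55.Idele73.Basic Fermat.Agent.S55.Idele73.Local
  Fermat.Agent.S55.Idele73.Components Fermat.Agent.S55.Idele73.LayerJq

variable (q : ℕ) [Fact q.Prime]

/-- **the lower bound of local class field theory over `ℚ_q`** (helper51 + helper80). -/
theorem absClassQ_holds : AbsClassQ q := Fermat.Agent.S55.LocDev51.absClass' q

variable {q}

section LF

variable (E : IntermediateField ℚ_[q] (PadicAlgCl q)) [FiniteDimensional ℚ_[q] E]
  [IsGalois ℚ_[q] E]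

/-- **the local fundamental cocycle** of every finite Galois `E/ℚ_q`. -/
theorem hasFund_LF : HasFund ℚ_[q] E := hasFund_of_absClassQ (absClassQ_holds q) E

/-- `H³(Gal(E/ℚ_q), Eˣ) = 0`. -/
theorem isZero_H3_units_LF : IsZero (groupCohomology (Rep.ofAlgebraAutOnUnits ℚ_[q] E) 3) :=
  isZero_H3_units (hasFund_LF E)

/-- `H³(D', Eˣ) = 0` for every subgroup `D' ≤ Gal(E/ℚ_q)`. -/
theorem isZero_H3_resUnits_LF (D' : Subgroup (E ≃ₐ[ℚ_[q]] E)) :
    IsZero (groupCohomology (Rep.res D'.subtype (Rep.ofAlgebraAutOnUnits ℚ_[q] E)) 3) :=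
  isZero_H3_resUnits (hasFund_LF E) D'

/-- `H³(Gal(E/K), Eˣ) = 0` for every intermediate field `K = E^{D'}`. -/
theorem isZero_H3_fixedField_LF (D' : Subgroup (E ≃ₐ[ℚ_[q]] E)) :
    IsZero (groupCohomology
      (Rep.ofAlgebraAutOnUnits (IntermediateField.fixedField D') E) 3) :=
  isZero_H3_fixedField (hasFund_LF E) D'

/-- every layer `(D ⧸ M, (Eˣ)^M)`, `M ⊴ D ≤ Gal(E/ℚ_q)`, has a fundamental cocycle. -/
theorem exists_fund_unitsLayer_LF (D : Subgroup (E ≃ₐ[ℚ_[q]] E)) (M : Subgroup D) [M.Normal] :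
    ∃ τ : groupCohomology.cocycles₂
        ((Rep.res D.subtype (Rep.ofAlgebraAutOnUnits ℚ_[q] E)).quotientToInvariants M),
      Fermat.Agent.S55.TateNak43.IsFundamentalCocycle
        ((Rep.res D.subtype (Rep.ofAlgebraAutOnUnits ℚ_[q] E)).quotientToInvariants M) τ :=
  exists_fund_unitsLayer (hasFund_LF E) D M

/-- `H³(D ⧸ M, (Eˣ)^M) = 0`. -/
theorem isZero_H3_unitsLayer_LF (D : Subgroup (E ≃ₐ[ℚ_[q]] E)) (M : Subgroup D) [M.Normal] :
    IsZero (groupCohomology
      ((Rep.res D.subtype (Rep.ofAlgebraAutOnUnits ℚ_[q] E)).quotientToInvariants M) 3) :=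
  isZero_H3_unitsLayer (hasFund_LF E) D M

/-- `|H²(D ⧸ M, (Eˣ)^M)| = |D ⧸ M|`. -/
theorem card_H2_unitsLayer_LF (D : Subgroup (E ≃ₐ[ℚ_[q]] E)) (M : Subgroup D) [M.Normal] :
    Nat.card (groupCohomology
      ((Rep.res D.subtype (Rep.ofAlgebraAutOnUnits ℚ_[q] E)).quotientToInvariants M) 2) =
      Nat.card (D ⧸ M) :=
  card_H2_unitsLayer (hasFund_LF E) D M

end LF

section Global

variable (q)
variable (L : IntermediateField ℚ Qbar) [Normal ℚ L] [FiniteDimensional ℚ L]

/-- the local level `E = ℚ_q(ι L)` has a fundamental cocycle. -/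
theorem hasFund_Elev_uncond : HasFund ℚ_[q] (Elev q L) := hasFund_LF (Elev q L)

/-- **`H³(H, Jq q L) = 0`** for every subgroup `H ≤ Gal(L/ℚ)`, unconditionally. -/
theorem isZero_H3_Jq_uncond (H : Subgroup (GalL L)) :
    IsZero (groupCohomology (Rep.res H.subtype (Jq q L)) 3) :=
  isZero_H3_Jq q L (hasFund_Elev_uncond q L) H

/-- **`H³(Gal(L/ℚ), Jq q L) = 0`**, unconditionally. -/
theorem isZero_H3_Jq_top_uncond : IsZero (groupCohomology (Jq q L) 3) :=
  isZero_H3_Jq_top q L (hasFund_Elev_uncond q L)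

/-- elementwise form on `Rep.coind (locHom q L) (localUnits q)`. -/
theorem eq_zero_of_H3_Jq_uncond (H : Subgroup (GalL L))
    (x : groupCohomology (Rep.res H.subtype (Rep.coind (locHom q L) (localUnits q))) 3) :
    x = 0 :=
  eq_zero_of_H3_Jq L (absClassQ_holds q) H x

/-- **`H³(H ⧸ N, (Jq q L)^N) = 0`** for every layer `N ⊴ H ≤ Gal(L/ℚ)`, unconditionally. -/
theorem isZero_H3_layer_Jq_uncond (H : Subgroup (GalL L)) (N : Subgroup H) [N.Normal] :
    IsZero (groupCohomology ((Rep.res H.subtype (Jq q L)).quotientToInvariants N) 3) :=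
  isZero_H3_layer_Jq q L H N (hasFund_Elev_uncond q L)

/-- **`|H²(H ⧸ N, (Jq q L)^N)| = ∏_x |D_x ⧸ M_x|`**, unconditionally. -/
theorem card_H2_layer_Jq_uncond (H : Subgroup (GalL L)) (N : Subgroup H) [N.Normal]
    {R : Finset (GalL L)} (hR : Mackey.IsRepr (jE q L) H R) :
    Nat.card (groupCohomology ((Rep.res H.subtype (Jq q L)).quotientToInvariants N) 2) =
      ∏ x : R, Nat.card (Dx q L H (x : GalL L) ⧸ MxJ q L H N (x : GalL L)) :=
  card_H2_layer_Jq q L H N (hasFund_Elev_uncond q L) hR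

/-- the local layers: `|H²(D_x ⧸ M_x, (Eˣ)^{M_x})| = |D_x ⧸ M_x|`, unconditionally. -/
theorem card_H2_locLayer_uncond (H : Subgroup (GalL L)) (N : Subgroup H) [N.Normal]
    (x : GalL L) :
    Nat.card (groupCohomology (locLayer q L H N x) 2) =
      Nat.card (Dx q L H x ⧸ MxJ q L H N x) :=
  card_H2_locLayer q L H N (hasFund_Elev_uncond q L) x

end Global

end Fermat.Agent.S55.H3Jq45
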